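/-
ORD case of (C) (helper7): **the case-C hypothesis of the ordinary deformation problem for `W[p] ⊗ k`,
`W` multiplicative at `p` with `p ∤ v_p(Δ_W)`** — the literal `MltIFirstOrderStrict p` of helper9's
`Lib/MLT/L1/C/DefsO.lean` (stated unfolded here: no cross-branch import).

  `mlto_tres_of_nf`          : `p ∣ Δ`, semistable, `p ∤ v_p(Δ)` ⟹ `MltoTres p (mltrE W p hΔ)`
                               (helper5's `mltpg_tres_all`; `IsPeuRamifieeAt p p` IS `p ∣ v_p(Δ)`);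
  `mlto_firstOrderStrict`    : `p ≠ 2 → MltIFirstOrderStrict p` (`mlto_hC_of_tres` + `mlto_tres_baseChange`).
-/
import Mathlib
import Fermat.Agent.Lib.MLT.AtPG.TresFinal
import Fermat.Agent.Lib.MLT.Res.Defs
import Fermat.Agent.Lib.MLT.TWO.TresMain
import Fermat.Agent.Lib.MLT.TWO.TresTransport

set_option autoImplicit false
set_option linter.unusedSectionVars false
set_option linter.unusedVariables false
set_option linter.style.haveILetI false

open WeierstrassCurve WeierstrassCurve.Affine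

namespace Fermat.Agent.MLT

open Fermat.Agent.S05Lib Fermat.Agent.TW Fermat.Agent.Delta Fermat.Agent.S58

local notation "Qb" => AlgebraicClosure ℚ
local notation "GQ" => (AlgebraicClosure ℚ ≃ₐ[ℚ] AlgebraicClosure ℚ)

/-- **`W[p]` is très ramifié at `p`** when `W` is multiplicative at `p` odd with `p ∤ v_p(Δ_W)`, in the
literal shape `MltoTres` consumed by the TWO stream -/
theorem mlto_tres_of_nf (W : WeierstrassCurve ℤ) (hΔ : W.Δ ≠ 0) (p : ℕ) [Fact p.Prime]
    (hp2 : p ≠ 2) (hss : W.IsSemistableModel) (hpΔ : (p : ℤ) ∣ W.Δ)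
    (hnf : ¬ (p : ℤ) ∣ padicValRat p (W.map (Int.castRingHom ℚ)).Δ) :
    MltoTres p (mltrE W p hΔ) := by
  have hp : p.Prime := Fact.out
  have hc₄ : ¬ (p : ℤ) ∣ W.c₄ := hss p hp hpΔ
  intro P hP
  obtain ⟨v₀, w, ζ, a, y, h1, h2, h3, h4, h5, h6⟩ :=
    mltpg_tres_all W hΔ p hp2 hpΔ hc₄ hnf P hP
  refine ⟨v₀, w, ζ, a, y, h1, h2, h3, h4, fun ι hι => ?_, h6⟩
  obtain ⟨h7, h8⟩ := h5 ι hι
  refine ⟨?_, h8⟩
  rw [Algebra.algebraMap_self, RingHom.id_apply]
  exact h7

/-- **`MltIFirstOrderStrict p`** (helper9's literal, `Lib/MLT/L1/C/DefsO.lean`), `p` odd -/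
theorem mlto_firstOrderStrict (p : ℕ) [Fact p.Prime] (hp2 : p ≠ 2) :
    ∀ (W : WeierstrassCurve ℤ) (hΔ : W.Δ ≠ 0), W.IsSemistableModel → W.ModRepIsIrreducible p →
      (p : ℤ) ∣ W.Δ → ¬ (p : ℤ) ∣ padicValRat p (W.map (Int.castRingHom ℚ)).Δ →
      ∀ (k : Type) [Field k] [Finite k] [Algebra (ZMod p) k],
        MltTWOOrdFirstOrderStrict p (mltrRep W p k hΔ) := by
  intro W hΔ hss hirr hpΔ hnf k _ _ _
  have hp : p.Prime := Fact.out
  have h3 : 3 ≤ p := by
    have := hp.two_le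
    omega
  exact mlto_hC_of_tres p h3 _
    (mlto_tres_baseChange p (mltrE W p hΔ) (mlto_tres_of_nf W hΔ p hp2 hss hpΔ hnf))

end Fermat.Agent.MLT
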